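import Mathlib
import Fermat.Agent.MU.Lib.Kronecker.ConjGens2

section MergeWrap_Lib_Kronecker_ConjExp -- from Lib/Kronecker/ConjExp.lean

set_option autoImplicit false
noncomputable section
namespace Fermat.Agent.Kronecker
open ModularCurve UpperHalfPlane Fermat.Agent.S24 Fermat.Agent.S24.GensExp
open scoped MatrixGroups

/-- the image of `j(q^{dℓ}) = β (j(q^d))` in `LL (N ℓ)` -/
theorem embHom_heckeBeta_jdBar (N d ℓ : ℕ) [NeZero N] [NeZero d] [NeZero ℓ] [NeZero (d * ℓ)]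
    (hd : d ∣ N) :
    EmbFHom.embHom (N * ℓ) (N * ℓ) dvd_rfl (heckeBetaBar Qb N ℓ (jdBar N d hd)) =
      EmbFHom.jdLL (N * ℓ) (d * ℓ) (Nat.mul_dvd_mul_right hd ℓ) := by
  apply EmbFHom.expLL_injective (N * ℓ)
  rw [EmbFHom.expLL_embHom, EmbFHom.expLL_jdLL, coe_heckeBetaBar, coe_jdBar, qExpand_qExpand,
    qExpand_qExpand]
  exact qExpand_congr (by ring) _

theorem expLL_smul_jdLL (M d : ℕ) [NeZero M] [NeZero d] (hd : d ∣ M) (γ : SL(2, ℤ))
    {a : LaurentSeries Qb} (ha : HasExp M (γ • jd d) a) :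
    EmbFHom.expLL M (γ • EmbFHom.jdLL M d hd) = a := by
  unfold EmbFHom.jdLL
  rw [LL.smul_algebraMap, EmbFHom.expLL_algebraMap]
  exact EmbFHom.expFun_eq M _ ha

theorem conjugateExpansions (N ℓ : ℕ) [NeZero N] [NeZero ℓ] (hcop : Nat.Coprime ℓ N) :
    ConjugateExpansions N ℓ := by
  have hN : 0 < N := Nat.pos_of_ne_zero (NeZero.ne N)
  have hℓ : 0 < ℓ := Nat.pos_of_ne_zero (NeZero.ne ℓ)
  obtain ⟨z0, hz0⟩ := HasExp.exists_iota_eq_exp (N * ℓ)
  have hprimC := Complex.isPrimitiveRoot_exp (N * ℓ) (NeZero.ne (N * ℓ))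
  rw [← hz0] at hprimC
  have hprim0 : IsPrimitiveRoot z0 (N * ℓ) := IsPrimitiveRoot.of_map_of_injective (f := iota) hprimC iota_injective
  have hz0ne : z0 ≠ 0 := hprim0.ne_zero (NeZero.ne (N * ℓ))
  set z : Qbˣ := Units.mk0 z0 hz0ne with hzdef
  have hz : iota (z : Qb) = Complex.exp (2 * Real.pi * Complex.I / ((N * ℓ : ℕ) : ℂ)) := hz0
  have hzprim : IsPrimitiveRoot z (N * ℓ) := IsPrimitiveRoot.coe_units_iff.mp hprim0
  have hζprim : IsPrimitiveRoot (z⁻¹ ^ N) ℓ :=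
    (hzprim.inv).pow (Nat.mul_pos hN hℓ) rfl
  obtain ⟨p, q, hpq⟩ : ∃ p q : ℤ, p * ℓ - q * N = 1 := by
    have h1 : IsCoprime (ℓ : ℤ) (N : ℤ) := Nat.isCoprime_iff_coprime.mpr hcop
    obtain ⟨a, b, hab⟩ := h1
    exact ⟨a, -b, by linear_combination hab⟩
  refine ⟨z⁻¹ ^ N, hζprim, fun b => ModularGroup.T ^ b * (deltaMat p q N ℓ hpq)⁻¹, fun b => ?_,
    fun b _ y => ?_⟩
  · exact mul_mem (pow_mem (T_mem_Gamma0 N) b) (inv_mem (deltaMat_mem_Gamma0 p q N ℓ hpq))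
  · set γ := ModularGroup.T ^ b * (deltaMat p q N ℓ hpq)⁻¹ with hγ
    let Φ₁ : ↥(modularFunctionFieldBar N) →+* LaurentSeries Qb :=
      (EmbFHom.expLL (N * ℓ)).toRingHom.comp
        ((MulSemiringAction.toRingHom SL(2, ℤ) (LL (N * ℓ)) γ).comp
          ((EmbFHom.embHom (N * ℓ) (N * ℓ) dvd_rfl).toRingHom.comp
            (heckeBetaBar Qb N ℓ).toRingHom))
    let Φ₂ : ↥(modularFunctionFieldBar N) →+* LaurentSeries Qb :=
      (qExpand Qb N).comp ((scaleL ((z⁻¹ ^ N) ^ b)).comp (modularFunctionFieldBar N).val.toRingHom)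
    have key : Φ₁ = Φ₂ := by
      apply ringHom_ext_FBar
      · intro c
        show EmbFHom.expLL (N * ℓ) (γ • EmbFHom.embHom (N * ℓ) (N * ℓ) dvd_rfl
            (heckeBetaBar Qb N ℓ (algebraMap Qb _ c))) =
          qExpand Qb N (scaleL ((z⁻¹ ^ N) ^ b) (algebraMap Qb (LaurentSeries Qb) c))
        rw [AlgHom.commutes, AlgHom.commutes, Algebra.algebraMap_eq_smul_one, smul_comm, smul_one,
          ← Algebra.algebraMap_eq_smul_one, AlgHom.commutes, scaleL_algebraMap, qExpand_algebraMap]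
      · intro d hdne hd
        show EmbFHom.expLL (N * ℓ) (γ • EmbFHom.embHom (N * ℓ) (N * ℓ) dvd_rfl
            (heckeBetaBar Qb N ℓ (jdBar N d hd))) =
          qExpand Qb N (scaleL ((z⁻¹ ^ N) ^ b) ((jdBar N d hd : ↥(modularFunctionFieldBar N)) :
            LaurentSeries Qb))
        rw [embHom_heckeBeta_jdBar, coe_jdBar]
        exact expLL_smul_jdLL _ _ _ _ (hasExp_conj_jd p q N d ℓ hd hpq z hz b)
    exact RingHom.congr_fun key y

end Fermat.Agent.Kronecker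
end
end MergeWrap_Lib_Kronecker_ConjExp
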