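import Mathlib
import Fermat.Agent.MU.Lib.Kronecker.KroneckerAux

section MergeWrap_Lib_Kronecker_Integral -- from Lib/Kronecker/Integral.lean

set_option autoImplicit false
noncomputable section
namespace Fermat.Agent.Kronecker
open ModularCurve Fermat.Agent.F3 Fermat.Agent.F3G Fermat.Agent.GaussInt

/-- **KRONECKER congruence, integral form.**  For `y ∈ A((q)) ∩ F_N`, the function
`T_ℓ y = Norm_{F_{Nℓ}/F_N} (y(q^ℓ))` has coefficients in `A` and
`T_ℓ y ≡ ȳ(q^ℓ) · Frob(ȳ)` modulo the maximal ideal of `A`. -/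
theorem kronecker_integral (N ℓ : ℕ) [NeZero N] [NeZero ℓ] [Fact ℓ.Prime]
    (hprod : NormProductFormula N ℓ) (A : ValuationSubring Qb)
    [CharP (IsLocalRing.ResidueField A) ℓ]
    (y : LaurentSeries A) (hy : emb A y ∈ modularFunctionFieldBar N) :
    ∃ z : LaurentSeries A,
      emb A z = ((heckeFun Qb N ℓ ⟨emb A y, hy⟩ : ↥(modularFunctionFieldBar N)) :
        LaurentSeries Qb) ∧
      red A z = qExpand (IsLocalRing.ResidueField A) ℓ (red A y) *
        coeffMap (frobenius (IsLocalRing.ResidueField A) ℓ) (red A y) := by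
  obtain ⟨ζ, hζ, hform⟩ := hprod
  have hℓ : 0 < ℓ := Nat.pos_of_ne_zero (NeZero.ne ℓ)
  have hζpow : ((ζ : Qbˣ) : Qb) ^ ℓ = 1 := by
    rw [← Units.val_pow_eq_pow_val, hζ.pow_eq_one, Units.val_one]
  have hζinv : ((ζ⁻¹ : Qbˣ) : Qb) ^ ℓ = 1 := by
    rw [← Units.val_pow_eq_pow_val, inv_pow, hζ.pow_eq_one, inv_one, Units.val_one]
  have hmem : (ζ : Qb) ∈ A := mem_valuationSubring_of_pow_eq_one A hℓ hζpow
  have hmem' : ((ζ⁻¹ : Qbˣ) : Qb) ∈ A := mem_valuationSubring_of_pow_eq_one A hℓ hζinv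
  let ζA : (↥A)ˣ := ⟨⟨ζ, hmem⟩, ⟨((ζ⁻¹ : Qbˣ) : Qb), hmem'⟩,
    Subtype.ext (by simp), Subtype.ext (by simp)⟩
  have hmap : Units.map (A.subtype : ↥A →* Qb) ζA = ζ := Units.ext rfl
  have hinj : Function.Injective (Units.map (A.subtype : ↥A →* Qb)) :=
    Units.map_injective Subtype.val_injective
  have hζA : IsPrimitiveRoot ζA ℓ :=
    IsPrimitiveRoot.of_map_of_injective (f := Units.map (A.subtype : ↥A →* Qb))
      (by rw [hmap]; exact hζ) hinj
  obtain ⟨W, hW⟩ := exists_qExpand_eq_of_scaleL_eq ℓ ζA hζA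
    (∏ b ∈ Finset.range ℓ, scaleL (ζA ^ b) y) (scaleL_prod_scaleL ℓ ζA hζA.pow_eq_one y)
  refine ⟨qExpand ↥A ℓ y * W, ?_, ?_⟩
  · apply qExpand_injective (R := Qb) ℓ
    rw [hform ⟨emb A y, hy⟩, map_mul, map_mul, ← coeffMap_qExpand, ← coeffMap_qExpand,
      ← coeffMap_qExpand, qExpand_qExpand, hW, map_prod]
    congr 1
    refine Finset.prod_congr rfl fun b _ => ?_
    rw [coeffMap_scaleL, map_pow]
    show scaleL (Units.map (A.subtype : ↥A →* Qb) ζA ^ b) _ = _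
    rw [hmap]
  · rw [map_mul, ← coeffMap_qExpand]
    congr 1
    exact kronecker_formal ℓ (IsLocalRing.residue A) ζA hζA.pow_eq_one y W hW

end Fermat.Agent.Kronecker
end
end MergeWrap_Lib_Kronecker_Integral
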