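import Mathlib
import Fermat.Agent.MU.Lib.Kronecker.Integral
import Fermat.Agent.MU.Lib.Kronecker.ConjExp
import Fermat.Agent.MU.Lib.Kronecker.NormProd

section MergeWrap_Lib_Kronecker_KroneckerAt -- from Lib/Kronecker/KroneckerAt.lean

set_option autoImplicit false
noncomputable section
namespace Fermat.Agent.Kronecker
open ModularCurve Fermat.Agent.F3 Fermat.Agent.F3G Fermat.Agent.GaussInt

theorem coeffMap_injective' {R S : Type*} [CommRing R] [CommRing S] (f : R →+* S)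
    (hf : Function.Injective f) : Function.Injective (coeffMap f) := by
  intro x y h
  ext n
  have := congrArg (fun z : LaurentSeries S => z.coeff n) h
  simp only [coeffMap_coeff] at this
  exact hf this

theorem coe_galFun (N : ℕ) (σ : GQ) (f : FBar N) :
    ((galFun N σ f : FBar N) : LaurentSeries (AlgebraicClosure ℚ)) =
      coeffMap ((σ : AlgebraicClosure ℚ ≃ₐ[ℚ] AlgebraicClosure ℚ) :
        AlgebraicClosure ℚ →+* AlgebraicClosure ℚ) (f : LaurentSeries (AlgebraicClosure ℚ)) :=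
  rfl

/-- **KRONECKER congruence** in terms of the Gauss valuation ring, from the product formula. -/
theorem kroneckerAt_of_normProductFormula (N : ℕ) [NeZero N]
    (h : ∀ (ℓ : ℕ) (hℓ : ℓ.Prime), ¬ ℓ ∣ N →
      (haveI : NeZero ℓ := ⟨hℓ.ne_zero⟩; NormProductFormula N ℓ)) :
    KroneckerAt N := by
  intro ℓ hℓ hℓN A hA σ hσ f hf
  have : NeZero ℓ := ⟨hℓ.ne_zero⟩
  have : Fact ℓ.Prime := ⟨hℓ⟩
  have : CharP (IsLocalRing.ResidueField A) ℓ := charP_residueField_of_liesOverPrime A ℓ hℓ hA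
  set k := IsLocalRing.ResidueField A with hk
  obtain ⟨Y1, Y2, hpres⟩ := hf
  obtain ⟨Z1, hZ1, hZ1r⟩ := kronecker_integral N ℓ (h ℓ hℓ hℓN) A Y1 hpres.mem₁
  obtain ⟨Z2, hZ2, hZ2r⟩ := kronecker_integral N ℓ (h ℓ hℓ hℓN) A Y2 hpres.mem₂
  have hfrobinj : Function.Injective (coeffMap (frobenius k ℓ)) :=
    coeffMap_injective' _ (frobenius_inj k ℓ)
  have hY2 : red A Y2 ≠ 0 := hpres.prim
  have hq2 : qExpand k ℓ (red A Y2) ≠ 0 := fun h0 =>
    hY2 (qExpand_injective (R := k) ℓ (by rw [h0, map_zero]))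
  have hf2 : coeffMap (frobenius k ℓ) (red A Y2) ≠ 0 := fun h0 =>
    hY2 (hfrobinj (by rw [h0, map_zero]))
  have hmul : f * (⟨emb A Y2, hpres.mem₂⟩ : FBar N) = ⟨emb A Y1, hpres.mem₁⟩ :=
    Subtype.ext hpres.eq
  have hpres' : IsPres A (modularFunctionFieldBar N)
      ((heckeFun (AlgebraicClosure ℚ) N ℓ f : FBar N) : LaurentSeries (AlgebraicClosure ℚ))
      Z1 Z2 := by
    refine ⟨by rw [hZ1]; exact Subtype.mem _, by rw [hZ2]; exact Subtype.mem _, ?_, ?_⟩
    · rw [hZ2r]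
      exact mul_ne_zero hq2 hf2
    · rw [hZ1, hZ2, ← hmul, map_mul]
      rfl
  refine ⟨hpres'.mem_gaussSub, ?_⟩
  rw [gaussResFun_eq hpres', hZ1r, hZ2r]
  -- the Galois side
  have hF : ∀ (τ : GQ) (y : LaurentSeries (AlgebraicClosure ℚ)), y ∈ modularFunctionFieldBar N →
      coeffMap ((τ : AlgebraicClosure ℚ ≃ₐ[ℚ] AlgebraicClosure ℚ) :
        AlgebraicClosure ℚ →+* AlgebraicClosure ℚ) y ∈ modularFunctionFieldBar N :=
    fun τ y hy => coeffMap_mem_laurentBaseChange τ hy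
  have hfmem : (f : LaurentSeries (AlgebraicClosure ℚ)) ∈ gaussSub A (modularFunctionFieldBar N) :=
    hpres.mem_gaussSub
  have hσd := hσ.mem_decompositionSubgroup
  have hσinv : σ⁻¹ ∈ A.decompositionSubgroup ℚ := inv_mem hσd
  have hinvmem := (gaussResFun_decomposition σ⁻¹ hσinv (hF σ⁻¹) hfmem).1
  have e1 : gaussResFun A (modularFunctionFieldBar N)
      ((galFun N σ f : FBar N) : LaurentSeries (AlgebraicClosure ℚ)) =
      coeffMap (frobenius k ℓ) (gaussResFun A (modularFunctionFieldBar N) f) := by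
    ext n
    rw [coe_galFun, gaussResFun_frobenius_coeff σ hσ (hF σ) hfmem n, coeffMap_coeff]
    rfl
  have e2 : gaussResFun A (modularFunctionFieldBar N)
      ((galFun N σ⁻¹ f : FBar N) : LaurentSeries (AlgebraicClosure ℚ)) ^ ℓ =
      qExpand k ℓ (gaussResFun A (modularFunctionFieldBar N) f) := by
    rw [pow_char_eq_qExpand_frobenius ℓ]
    congr 1
    ext n
    rw [coeffMap_coeff, coe_galFun]
    have h3 := gaussResFun_frobenius_coeff σ hσ (hF σ) hinvmem n
    have h4 : coeffMap ((σ : AlgebraicClosure ℚ ≃ₐ[ℚ] AlgebraicClosure ℚ) :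
        AlgebraicClosure ℚ →+* AlgebraicClosure ℚ)
        (coeffMap ((σ⁻¹ : AlgebraicClosure ℚ ≃ₐ[ℚ] AlgebraicClosure ℚ) :
        AlgebraicClosure ℚ →+* AlgebraicClosure ℚ) (f : LaurentSeries (AlgebraicClosure ℚ))) =
        (f : LaurentSeries (AlgebraicClosure ℚ)) := by
      rw [coeffMap_coeffMap]
      conv_rhs => rw [← coeffMap_id (f : LaurentSeries (AlgebraicClosure ℚ))]
      apply coeffMap_congr
      ext x
      simp
    rw [h4] at h3
    rw [h3]
    rfl
  rw [e1, e2, gaussResFun_eq hpres, map_div₀, map_div₀, div_mul_div_comm,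
    mul_comm (qExpand _ ℓ (red A Y1)), mul_comm (qExpand _ ℓ (red A Y2))]

end Fermat.Agent.Kronecker
end
end MergeWrap_Lib_Kronecker_KroneckerAt

section MergeWrap_Lib_Kronecker_Prod -- from Lib/Kronecker/Prod.lean

set_option autoImplicit false

noncomputable section

namespace Fermat.Agent.Kronecker

/-- **PROD**: `(T_ℓ y)(q^ℓ) = y(q^{ℓ²}) · ∏_{b<ℓ} y(ζ^b q)` for a prime `ℓ ∤ N`. -/
theorem normProductFormula (N ℓ : ℕ) [NeZero N] [NeZero ℓ] (hℓ : ℓ.Prime) (hℓN : ¬ ℓ ∣ N) :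
    NormProductFormula N ℓ :=
  normProductFormula_of_conjugateExpansions N ℓ hℓ hℓN
    (conjugateExpansions N ℓ ((Nat.Prime.coprime_iff_not_dvd hℓ).mpr hℓN))

/-- **KRONECKER congruence** at every level `N`. -/
theorem kroneckerAt (N : ℕ) [NeZero N] : KroneckerAt N :=
  kroneckerAt_of_normProductFormula N fun ℓ hℓ hℓN =>
    haveI : NeZero ℓ := ⟨hℓ.ne_zero⟩
    normProductFormula N ℓ hℓ hℓN

end Fermat.Agent.Kronecker
end
end MergeWrap_Lib_Kronecker_Prod
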